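/-
# RIBET row 38, WALL-p, (S4) CORE-OUT WILD, piece DEEP-SPLIT: descent of `p`-th roots  (helper339)

`E ⊆ ℚ̄` a level, `F₀` a function field over `ℚ`, `F_E = laurentBaseChange E F₀ ⊆ E((t))`,
`ι : F_E → F_{ℚ̄}`.

* `order_coeffMap339`            : an injective map on the coefficients preserves the order;
* `exists_const_mul_pow339`      : `X ∈ F_E`, `ι X = g ^ p` with `g ∈ F_{ℚ̄}`  ⟹
                                   `X = e · h ^ p` with `e ∈ E`, `h ∈ F_E`
  (normalise the leading coefficient, take the `p`-th root in `E((t))`, compare with `g` over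
  `ℚ̄`, descend the membership in the function field).

Application: the norms `N_α f_t`, `N_β f_t` of the rational Kummer generator of a NEW class are
constants times `p`-th powers AT THE LEVEL `E` (hypotheses `hNα`, `hNβ` of `H703.deepSplit_E`,
`H944.LcConst.deepSplit_lc`).
-/
import Fermat.Agent.A2.T1.H669.Embed
import Fermat.Agent.S29.H991.CoeffDescent
import Fermat.Agent.Ribet.H708.ConstRoot
import Fermat.Agent.Ribet.H819.PerRoot

set_option autoImplicit false
set_option linter.unusedSectionVars false
set_option linter.style.haveILetI false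
set_option synthInstance.maxHeartbeats 400000
set_option maxHeartbeats 1000000

noncomputable section

namespace Fermat.Agent.Ribet.H339

open ModularCurve HahnSeries
open Fermat.Agent.A2

local notation "Qb" => AlgebraicClosure ℚ

section Order

variable {R S : Type*} [CommRing R] [CommRing S]

/-- An injective map on the coefficients preserves the order of a Laurent series. -/
theorem order_coeffMap339 (φ : R →+* S) (hφ : Function.Injective φ) (x : LaurentSeries R) :
    (coeffMap φ x).order = x.order := by
  by_cases hx : x = 0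
  · subst hx
    simp
  · have hx' : coeffMap φ x ≠ 0 := by
      intro h
      apply hx
      ext k
      have h1 := congrArg (fun z : LaurentSeries S => z.coeff k) h
      simp only [coeffMap_coeff, HahnSeries.coeff_zero] at h1
      exact hφ (h1.trans (map_zero φ).symm)
    apply le_antisymm
    · apply HahnSeries.order_le_of_coeff_ne_zero
      rw [coeffMap_coeff]
      intro h
      have h0 : x.coeff x.order = 0 := hφ (h.trans (map_zero φ).symm)
      exact hx (HahnSeries.coeff_order_eq_zero.1 h0)
    · apply HahnSeries.order_le_of_coeff_ne_zero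
      intro h
      have h2 : (coeffMap φ x).coeff (coeffMap φ x).order ≠ 0 :=
        fun h0 => hx' (HahnSeries.coeff_order_eq_zero.1 h0)
      rw [coeffMap_coeff, h, map_zero] at h2
      exact h2 rfl

end Order

section Root

variable (E : IntermediateField ℚ Qb) (F₀ : IntermediateField ℚ (LaurentSeries ℚ))

/-- **Descent of `p`-th roots.**  If the image over `ℚ̄` of `X ∈ F_E` is a `p`-th power, then `X`
is a constant of `E` times a `p`-th power in `F_E`. -/
theorem exists_const_mul_pow339 (p : ℕ) (hp0 : p ≠ 0)
    (X : ↥(laurentBaseChange E F₀)) (hX : X ≠ 0) (g : ↥(laurentBaseChange Qb F₀))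
    (hg : T1.H669.iota E F₀ X = g ^ p) :
    ∃ (e : E) (h : ↥(laurentBaseChange E F₀)), e ≠ 0 ∧ h ≠ 0 ∧
      X = algebraMap E ↥(laurentBaseChange E F₀) e * h ^ p := by
  classical
  set Xs : LaurentSeries E := (X : LaurentSeries E) with hXs
  set gs : LaurentSeries Qb := (g : LaurentSeries Qb) with hgs
  have hXs0 : Xs ≠ 0 := fun h => hX (Subtype.ext h)
  have hinj : Function.Injective (algebraMap E Qb) := (algebraMap E Qb).injective
  -- the relation over `ℚ̄`
  have hrel : coeffMap (algebraMap E Qb) Xs = gs ^ p := by
    have h1 := congrArg (fun z : ↥(laurentBaseChange Qb F₀) => (z : LaurentSeries Qb)) hg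
    simpa using h1
  have hgs0 : gs ≠ 0 := by
    intro h0
    rw [h0, zero_pow hp0] at hrel
    apply hXs0
    exact Fermat.Agent.S29.H991.desc_coeffMap_injective (algebraMap E Qb)
      (hrel.trans (map_zero _).symm)
  -- normalisation
  set e : E := Xs.leadingCoeff with he
  have he0 : e ≠ 0 := HahnSeries.leadingCoeff_ne_zero.mpr hXs0
  set Y : LaurentSeries E := HahnSeries.C e⁻¹ * Xs with hY
  have hC0 : (HahnSeries.C e⁻¹ : LaurentSeries E) ≠ 0 := by
    intro h0
    have h1 := congrArg (fun z : LaurentSeries E => z.coeff 0) h0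
    simp only [HahnSeries.C_apply, HahnSeries.coeff_single_same, HahnSeries.coeff_zero] at h1
    exact inv_ne_zero he0 h1
  have hYlc : Y.leadingCoeff = 1 := by
    rw [hY, HahnSeries.leadingCoeff_mul]
    have : (HahnSeries.C e⁻¹ : LaurentSeries E).leadingCoeff = e⁻¹ := by
      rw [HahnSeries.C_apply]
      exact HahnSeries.leadingCoeff_of_single
    rw [this, ← he, inv_mul_cancel₀ he0]
  have hYord : (p : ℤ) ∣ Y.order := by
    have h1 : Y.order = Xs.order := by
      rw [hY, HahnSeries.order_mul hC0 hXs0]
      have : (HahnSeries.C e⁻¹ : LaurentSeries E).order = 0 := by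
        rw [HahnSeries.C_apply]
        exact HahnSeries.order_single (inv_ne_zero he0)
      rw [this, zero_add]
    have h2 : Xs.order = (gs ^ p).order := by
      rw [← hrel, order_coeffMap339 _ hinj]
    rw [h1, h2, HahnSeries.order_pow]
    exact ⟨gs.order, by rw [nsmul_eq_mul]⟩
  have hpE : (p : E) ≠ 0 := by exact_mod_cast hp0
  obtain ⟨h, hhp, hh0, -, -⟩ := H819.exists_root_laurent_h819 p hp0 hpE Y hYlc hYord
  -- compare with `g` over `ℚ̄`
  have hpow : (coeffMap (algebraMap E Qb) h) ^ p
      = HahnSeries.C (algebraMap E Qb e⁻¹) * gs ^ p := by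
    rw [← map_pow, hhp, hY, map_mul, hrel]
    congr 1
    rw [HahnSeries.C_apply, HahnSeries.C_apply, coeffMap_single]
  obtain ⟨c', -, hc'⟩ := H708.h708_eq_C_mul_of_pow_eq hp0 hgs0 hpow
  have hmemQ : coeffMap (algebraMap E Qb) h ∈ laurentBaseChange Qb F₀ := by
    rw [hc']
    refine mul_mem ?_ g.2
    have : (HahnSeries.C c' : LaurentSeries Qb) = algebraMap Qb (LaurentSeries Qb) c' := by
      rw [HahnSeries.C_apply, algebraMap_laurentSeries_eq_single]
    rw [this]
    exact IntermediateField.algebraMap_mem _ c'
  have hmemE : h ∈ laurentBaseChange E F₀ :=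
    Fermat.Agent.S29.H991.mem_laurentBaseChange_of_coeffMap_mem (algebraMap E Qb) h hmemQ
  refine ⟨e, ⟨h, hmemE⟩, he0, fun h0 => hh0 (congrArg Subtype.val h0), ?_⟩
  apply Subtype.ext
  show Xs = algebraMap E (LaurentSeries E) e * h ^ p
  rw [hhp, hY, ← mul_assoc]
  have : algebraMap E (LaurentSeries E) e * HahnSeries.C e⁻¹ = 1 := by
    have h1 : (algebraMap E (LaurentSeries E) e : LaurentSeries E) = HahnSeries.C e := by
      rw [HahnSeries.C_apply, algebraMap_laurentSeries_eq_single]
    rw [h1, ← map_mul, mul_inv_cancel₀ he0, map_one]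
  rw [this, one_mul]

end Root

end Fermat.Agent.Ribet.H339

end
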