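/-
# RIBET row 38, WALL-p, (S4) CORE-OUT WILD, piece DEEP-SPLIT: the core  (helper339)

Second, independent assembly of "the `lc`-`1` Kummer generator `f_t` of a new, non-Eisenstein
eigenclass is DEEP SPLIT at a GIVEN good level `E`" from the leaves on main:

* `H801.alphaPushTo_mk_eq_zero_iff` / `betaPushTo_mk_eq_zero_iff` (new ⟹ norms are `p`-th powers
  over `ℚ̄`), `S35.H858.iota_normAlong_alpha/beta` (norms commute with `E ⊆ ℚ̄`),
* `H339.exists_const_mul_pow339` (descent of `p`-th roots: the norms are constants times `p`-th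
  powers AT THE LEVEL `E`),
* `H944.LcConst.deepSplit_lc` (norm contraction `H232.wnc_both` + NORM-CONST `H703` + LC-CONST).

Output (`deepSplit_to339`): for every `s` ONE `g ≠ 0` with
`u / g ^ p ∈ (1 + w ^ s V∞) ∩ (1 + w ^ s V₀)`; the `J`-side lives at a level `N₁`, the function
field side at a level `N₂`, both presentations of `M * p` (e.g. `N₁ = p * M'`, `N₂ = M' * p`).
-/
import Fermat.Agent.Ribet.H339.RootDesc
import Fermat.Agent.Ribet.H944.LcConst
import Fermat.Agent.Ribet.H801.DegKummer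
import Fermat.Agent.Ribet.H884.SlopeSpec

set_option autoImplicit false
set_option linter.style.haveILetI false
set_option linter.unusedSectionVars false
set_option synthInstance.maxHeartbeats 400000
set_option maxHeartbeats 1600000

noncomputable section

namespace Fermat.Agent.Ribet.H339

open AlgebraicCurve ModularCurve HahnSeries
open Fermat.Agent.S24 Fermat.Agent.A2.H528 Fermat.Agent.S29.H395
open Fermat.Agent.A2 Fermat.Agent.A2.Mod Fermat.Agent.Ribet.H232

section Norms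

variable (E : IntermediateField ℚ Qb) (M p : ℕ) [NeZero M] [NeZero p]

/-- **Norm along `α` at the level `E`**: if `α_* [D] = 0`, `div (ι u) = p D`, then
`N_α u = e · h ^ p` with `e ∈ E`, `h ∈ F_{M,E}`. -/
theorem normAlpha_of_new339 (hp0 : p ≠ 0) (u : FE E (M * p)) (hu : u ≠ 0)
    (D : Divisor.degZero (K := Kbar) (F := FF (M * p)))
    (hD : ∀ v : Place Kbar (FF (M * p)),
      v.ord (T1.H669.iota E (modularFunctionFieldFull (M * p)) u)
        = (p : ℤ) * (D : Divisor Kbar (FF (M * p))) v)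
    (hα : Fermat.Agent.Ribet.H801.alphaPushTo M p (M * p) rfl (Pic0.mk D) = 0) :
    ∃ (e : E) (h : FE E M), normAlpha E M p u = algebraMap E (FE E M) e * h ^ p := by
  have hu' : T1.H669.iota E (modularFunctionFieldFull (M * p)) u ≠ 0 :=
    T1.H669.iota_ne_zero E _ hu
  obtain ⟨g, -, hg⟩ := (Fermat.Agent.Ribet.H801.alphaPushTo_mk_eq_zero_iff M p (M * p) rfl hp0 D
    hu' (fun v => (hD v).symm)).1 hα
  rw [Fermat.Agent.S29.H801.alphaTo_rfl] at hg
  have h1 : T1.H669.iota E (modularFunctionFieldFull M) (normAlong (heckeAlphaBar E M p) u)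
      = g ^ p := by
    rw [Fermat.Agent.S35.H858.iota_normAlong_alpha E M p
      (Fermat.Agent.Lib.HI.H864.finiteAlong_alpha M p) u]
    exact hg
  have hN0 : normAlong (heckeAlphaBar E M p) u ≠ 0 := by
    intro h0
    rw [h0, map_zero] at h1
    have hNQ : normAlong (heckeAlphaBar Kbar M p)
        (T1.H669.iota E (modularFunctionFieldFull (M * p)) u) ≠ 0 :=
      Fermat.Agent.Ribet.H703.normAlong_ne_zero703 _ hu'
    rw [hg] at hNQ
    exact hNQ h1.symm
  obtain ⟨e, h, -, -, heq⟩ := exists_const_mul_pow339 E (modularFunctionFieldFull M) p hp0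
    (normAlong (heckeAlphaBar E M p) u) hN0 g h1
  exact ⟨e, h, heq⟩

/-- **Norm along `β` at the level `E`.** -/
theorem normBeta_of_new339 (hp0 : p ≠ 0) (u : FE E (M * p)) (hu : u ≠ 0)
    (D : Divisor.degZero (K := Kbar) (F := FF (M * p)))
    (hD : ∀ v : Place Kbar (FF (M * p)),
      v.ord (T1.H669.iota E (modularFunctionFieldFull (M * p)) u)
        = (p : ℤ) * (D : Divisor Kbar (FF (M * p))) v)
    (hβ : Fermat.Agent.Ribet.H801.betaPushTo M p (M * p) rfl (Pic0.mk D) = 0) :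
    ∃ (e : E) (h : FE E M), normBeta E M p u = algebraMap E (FE E M) e * h ^ p := by
  have hu' : T1.H669.iota E (modularFunctionFieldFull (M * p)) u ≠ 0 :=
    T1.H669.iota_ne_zero E _ hu
  obtain ⟨g, -, hg⟩ := (Fermat.Agent.Ribet.H801.betaPushTo_mk_eq_zero_iff M p (M * p) rfl hp0 D
    hu' (fun v => (hD v).symm)).1 hβ
  rw [Fermat.Agent.S29.H801.betaTo_rfl] at hg
  have h1 : T1.H669.iota E (modularFunctionFieldFull M) (normAlong (heckeBetaBar E M p) u)
      = g ^ p := by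
    rw [Fermat.Agent.S35.H858.iota_normAlong_beta E M p
      (Fermat.Agent.Lib.HI.H864.finiteAlong_beta M p) u]
    exact hg
  have hN0 : normAlong (heckeBetaBar E M p) u ≠ 0 := by
    intro h0
    rw [h0, map_zero] at h1
    have hNQ : normAlong (heckeBetaBar Kbar M p)
        (T1.H669.iota E (modularFunctionFieldFull (M * p)) u) ≠ 0 :=
      Fermat.Agent.Ribet.H703.normAlong_ne_zero703 _ hu'
    rw [hg] at hNQ
    exact hNQ h1.symm
  obtain ⟨e, h, -, -, heq⟩ := exists_const_mul_pow339 E (modularFunctionFieldFull M) p hp0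
    (normAlong (heckeBetaBar E M p) u) hN0 g h1
  exact ⟨e, h, heq⟩

end Norms

section Core

variable {P : ValuationSubring Qb} {E : IntermediateField ℚ Qb} {M p : ℕ} [NeZero M] [NeZero p]
  {w : RE P E}

/-- **DEEP-SPLIT, core** (everything at the level `M * p`). -/
theorem deepSplit_core339 (ℓ : ℕ) [NeZero ℓ] (hS : Setting P E M p w)
    {VM : ValuationSubring (FE E M)}
    {V : ValuationSubring (FE E (M * p))} (hVM : IsVinf P E M VM) (hV : IsVinf P E (M * p) V)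
    {W : FE E (M * p) ≃ₐ[E] FE E (M * p)} (hW : IsFricke E (M * p) W)
    (hp : p.Prime) (hp2 : p ≠ 2) (hpM : ¬ p ∣ M) (hℓ : ℓ.Prime)
    (hℓN : ¬ ℓ ∣ M * p) {u : FE E (M * p)} (hu : u ≠ 0)
    (D : Divisor.degZero (K := Kbar) (F := FF (M * p)))
    (hD : ∀ v : Place Kbar (FF (M * p)),
      v.ord (T1.H669.iota E (modularFunctionFieldFull (M * p)) u)
        = (p : ℤ) * (D : Divisor Kbar (FF (M * p))) v)
    (a : ℤ) (hT : heckeOperatorBar (M * p) ⟨ℓ, hℓ⟩ (Pic0.mk D) = a • Pic0.mk D)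
    (hNE : ¬ (p : ℤ) ∣ a - (ℓ + 1))
    (hα : Fermat.Agent.Ribet.H801.alphaPushTo M p (M * p) rfl (Pic0.mk D) = 0)
    (hβ : Fermat.Agent.Ribet.H801.betaPushTo M p (M * p) rfl (Pic0.mk D) = 0)
    (h1 : DepthE w p V 1 u ∨
      DepthE w p (V.comap (W : FE E (M * p) →+* FE E (M * p))) 1 u)
    (c : E) (hlc : (u : LaurentSeries E).leadingCoeff = c ^ p) (s : ℕ) :
    ∃ g : FE E (M * p), g ≠ 0 ∧
      (u * (g ^ p)⁻¹ - 1) * (cE P E (M * p) w ^ s)⁻¹ ∈ V ∧
      (u * (g ^ p)⁻¹ - 1) * (cE P E (M * p) w ^ s)⁻¹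
        ∈ V.comap (W : FE E (M * p) →+* FE E (M * p)) := by
  obtain ⟨eα, hA, hNα⟩ := normAlpha_of_new339 E M p hp.ne_zero u hu D hD hα
  obtain ⟨eβ, hB, hNβ⟩ := normBeta_of_new339 E M p hp.ne_zero u hu D hD hβ
  exact Fermat.Agent.Ribet.H944.LcConst.deepSplit_lc ℓ hS hVM hV hW hp hp2 hpM hℓ hℓN hu D hD a
    hT hNE hNα hNβ h1 c hlc s

end Core

section To

variable {P : ValuationSubring Qb} {E : IntermediateField ℚ Qb} {M p : ℕ} [NeZero M] [NeZero p]
  {w : RE P E}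

/-- **DEEP-SPLIT, consumer form.**  The class `t ∈ J₀(N₁)`, its Kummer generator `f` (level
`N₁`), and the rational model `u ∈ F_{N₂,E}` of `f` (same `t`-expansion), `N₁`, `N₂` two
presentations of the level `M * p`. -/
theorem deepSplit_to339 {N₁ N₂ : ℕ} [NeZero N₁] [NeZero N₂] (h₁ : M * p = N₁) (h₂ : M * p = N₂)
    (ℓ : ℕ) [NeZero ℓ] (hS : Setting P E M p w)
    {VM : ValuationSubring (FE E M)}
    {V : ValuationSubring (FE E N₂)} (hVM : IsVinf P E M VM) (hV : IsVinf P E N₂ V)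
    {W : FE E N₂ ≃ₐ[E] FE E N₂} (hW : IsFricke E N₂ W)
    (hp : p.Prime) (hp2 : p ≠ 2) (hpM : ¬ p ∣ M) (hℓ : ℓ.Prime) (hℓN : ¬ ℓ ∣ M * p)
    (t : JZero N₁) (f : FF N₁) (hK : Fermat.Agent.Ribet.H884.IsKummerGen N₁ p f t)
    (a : ℤ) (hT : heckeOperatorBar N₁ ⟨ℓ, hℓ⟩ t = a • t)
    (hNE : ¬ (p : ℤ) ∣ a - (ℓ + 1))
    (hα : Fermat.Agent.Ribet.H801.alphaPushTo M p N₁ h₁ t = 0)
    (hβ : Fermat.Agent.Ribet.H801.betaPushTo M p N₁ h₁ t = 0)
    {u : FE E N₂}
    (hfu : (f : LaurentSeries Kbar) = coeffMap (algebraMap E Kbar) (u : LaurentSeries E))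
    (h1 : DepthE w p V 1 u ∨ DepthE w p (V.comap (W : FE E N₂ →+* FE E N₂)) 1 u)
    (c : E) (hlc : (u : LaurentSeries E).leadingCoeff = c ^ p) (s : ℕ) :
    ∃ g : FE E N₂, g ≠ 0 ∧
      (u * (g ^ p)⁻¹ - 1) * (cE P E N₂ w ^ s)⁻¹ ∈ V ∧
      (u * (g ^ p)⁻¹ - 1) * (cE P E N₂ w ^ s)⁻¹ ∈ V.comap (W : FE E N₂ →+* FE E N₂) := by
  subst h₁
  subst h₂
  obtain ⟨hf0, D, rfl, hD⟩ := hK
  have hfu' : f = T1.H669.iota E (modularFunctionFieldFull (M * p)) u := Subtype.ext hfu
  have hu : u ≠ 0 := by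
    rintro rfl
    rw [map_zero] at hfu'
    exact hf0 hfu'
  exact deepSplit_core339 ℓ hS hVM hV hW hp hp2 hpM hℓ hℓN hu D (fun v => by rw [← hfu']; exact hD v)
    a hT hNE hα hβ h1 c hlc s

end To

end Fermat.Agent.Ribet.H339

end
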