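/-
# RIBET row 38, WALL-p, (S4) CORE-OUT WILD, piece DEEP-SPLIT of `f_t`  (helper339)

Second, independent owner (assigned by the row-lead, note 10045).  Hypotheses of WILD on the
class `t` (`IsNewTors`, `EigenAt`, `NonEisAway`, inertia acts through `χ`), a GIVEN good level
`E` (e.g. the tame level `H944.Tame.tameLevel A ζ`), `f_t ∈ F_{M' p, E}` a rational model of a
Kummer generator of `t` whose leading coefficient is a `p`-th power of `E` (e.g. `1`).

* `deepSplit_val339`  : for every `s` ONE `g ≠ 0` with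
                        `f_t / g ^ p ∈ (1 + w ^ s V∞) ∩ (1 + w ^ s V₀)`;
* `divisibleDiv339`   : `A2.DivisibleDiv E p f_t`;
* `splitAt_of_val339` : valuation form ⟹ `H704.I6.SplitAt` along a prime `𝔭` of a chart `B`
                        whose localisation is the valuation ring;
* `deepSplit339`      : `DivisibleDiv` and `I6.SplitAt` at BOTH cuts of the chart of a coordinate
                        (`H220.cutLoc`).
-/
import Fermat.Agent.Ribet.H339.DeepSplitCore
import Fermat.Agent.Ribet.H232.DepthE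
import Fermat.Agent.Ribet.H39.InertiaCyclo
import Fermat.Agent.Ribet.H669.Gen
import Fermat.Agent.Ribet.H997.RedField
import Fermat.Agent.Ribet.H220.S2CutLoc
import Fermat.Agent.Ribet.H704.I6Inst
import Fermat.Agent.A2.T1.H669.T2
import Fermat.Agent.A2.Mod.H708.Vinf

set_option autoImplicit false
set_option linter.style.haveILetI false
set_option linter.unusedSectionVars false
set_option synthInstance.maxHeartbeats 400000
set_option maxHeartbeats 1600000

noncomputable section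

namespace Fermat.Agent.Ribet.H339

open AlgebraicCurve ModularCurve HahnSeries
open Fermat.Agent.S24 Fermat.Agent.A2.H528 Fermat.Agent.S29.H395
open Fermat.Agent.A2 Fermat.Agent.A2.Mod Fermat.Agent.Ribet.H232
open Fermat.Agent.Ribet.Spec Fermat.Agent.Ribet.H944.Wall Fermat.Agent.Ribet.H884
open Fermat.Agent.Ribet.H704

section Val

variable (p M' : ℕ) [NeZero M'] [NeZero p] [NeZero (p * M')]

/-- **DEEP-SPLIT, valuation form**, at a given good level `E`. -/
theorem deepSplit_val339 (hp : p.Prime) (hp2 : p ≠ 2) (hpM : ¬ p ∣ M')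
    (A : ValuationSubring Kbar) (hA : A.LiesOverPrime p)
    (S : Finset ℕ) (a : ℕ → ℤ) (hNE : NonEisAway p a) (t : JZero (p * M'))
    (ht : IsNewTors p M' t) (het : EigenAt (p * M') S a t)
    (hχ : ∀ σ ∈ A.inertiaSubgroupIn ℚ, ∀ c : ℕ, CycloAt p σ c → σ • t = c • t)
    (E : IntermediateField ℚ Kbar) (hE : GoodField A E) (w : Mod.RE A E)
    (hS : Mod.Setting A E M' p w)
    (V : ValuationSubring (Mod.FE E (M' * p))) (hV : IsVinf A E (M' * p) V)
    (W : Mod.FE E (M' * p) ≃ₐ[E] Mod.FE E (M' * p)) (hW : IsFricke E (M' * p) W)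
    (f : FF (p * M')) (hK : IsKummerGen (p * M') p f t) (ft : Mod.FE E (M' * p))
    (hfu : (f : LaurentSeries Kbar) = coeffMap (algebraMap E Kbar) (ft : LaurentSeries E))
    (c : E) (hlc : (ft : LaurentSeries E).leadingCoeff = c ^ p) (s : ℕ) :
    ∃ g : Mod.FE E (M' * p), g ≠ 0 ∧
      (ft * (g ^ p)⁻¹ - 1) * (cE A E (M' * p) w ^ s)⁻¹ ∈ V ∧
      (ft * (g ^ p)⁻¹ - 1) * (cE A E (M' * p) w ^ s)⁻¹
        ∈ V.comap (W : Mod.FE E (M' * p) →+* Mod.FE E (M' * p)) := by
  haveI : IsDiscreteValuationRing (Mod.RE A E) := hS.dvr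
  -- `t` lies in the split part
  have hsplit : t ∈ splitPart p M' A :=
    Fermat.Agent.Ribet.H39.mem_of_cyclo_of_s1For p M' hp hp2 A hA _
      (Fermat.Agent.Ribet.H884.s1 p M' hp hpM A hA) t ht.1 hχ
  have hset : t ∈ splitSet p M' A :=
    Fermat.Agent.Ribet.H884.splitClosed p M' hp hpM A hA t hsplit
  have hSG : SplitGen p M' A f :=
    ((Fermat.Agent.Ribet.H669.genIndep_of Fermat.Agent.Ribet.H997.redField) p M' hp hpM A hA
      t f hK).2 hset
  -- depth one
  obtain ⟨hd1, -⟩ := depthE_one_of_splitGen_series (N := M' * p) (Nat.mul_comm p M') hp hpM hA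
    hE hS.unif hV hfu hSG
  -- a good prime `ℓ`
  have hN0 : M' * p ≠ 0 := mul_ne_zero (NeZero.ne M') hp.ne_zero
  obtain ⟨ℓ, hℓ, hℓS, hℓNE⟩ := hNE (S ∪ (M' * p).primeFactors)
  have hℓS' : ℓ ∉ S := fun h => hℓS (Finset.mem_union_left _ h)
  have hℓN : ¬ ℓ ∣ M' * p := fun h =>
    hℓS (Finset.mem_union_right _ (Nat.mem_primeFactors.mpr ⟨hℓ, h, hN0⟩))
  haveI : NeZero ℓ := ⟨hℓ.ne_zero⟩
  have hT : heckeOperatorBar (p * M') ⟨ℓ, hℓ⟩ t = a ℓ • t := het ⟨ℓ, hℓ⟩ hℓS'
  -- newness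
  have hα : Fermat.Agent.Ribet.H801.alphaPushTo M' p (p * M') (Nat.mul_comm M' p) t = 0 := by
    rw [← Fermat.Agent.Ribet.H801.alphaL_eq_alphaPushTo]
    exact ht.2.1
  have hβ : Fermat.Agent.Ribet.H801.betaPushTo M' p (p * M') (Nat.mul_comm M' p) t = 0 := by
    rw [← Fermat.Agent.Ribet.H801.betaL_eq_betaPushTo]
    exact ht.2.2
  obtain ⟨VM, hVM⟩ := Fermat.Agent.A2.Mod.H708.vinfExists A E M' (NeZero.ne M') hS.dvr
  exact deepSplit_to339 (N₁ := p * M') (N₂ := M' * p) (Nat.mul_comm M' p) rfl ℓ hS hVM hV hW hp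
    hp2 hpM hℓ hℓN t f hK (a ℓ) hT hℓNE hα hβ hfu (Or.inl hd1) c hlc s

/-- **Horizontal divisibility** of the rational Kummer generator. -/
theorem divisibleDiv339 (t : JZero (p * M')) (E : IntermediateField ℚ Kbar)
    (f : FF (p * M')) (hK : IsKummerGen (p * M') p f t) (ft : Mod.FE E (M' * p))
    (hfu : (f : LaurentSeries Kbar) = coeffMap (algebraMap E Kbar) (ft : LaurentSeries E)) :
    DivisibleDiv E p ft := by
  obtain ⟨hf0, D, -, hD⟩ := hK
  have hft0 : ft ≠ 0 := by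
    rintro rfl
    apply hf0
    apply Subtype.ext
    rw [hfu]
    exact map_zero _
  have key : ∀ {N : ℕ} (hN : p * M' = N) (u : Mod.FE E N),
      (f : LaurentSeries Kbar) = coeffMap (algebraMap E Kbar) (u : LaurentSeries E) → u ≠ 0 →
      DivisibleDiv E p u := by
    intro N hN u hu hu0
    subst hN
    have hfu' : f = T1.H669.iota E (modularFunctionFieldFull (p * M')) u := Subtype.ext hu
    exact T1.H669.divisibleDiv_of_ord E (modularFunctionFieldFull (p * M')) p u hu0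
      (fun v => ⟨(D : Divisor Kbar (FF (p * M'))) v, by rw [← hfu']; exact hD v⟩)
  exact key (Nat.mul_comm p M') ft hfu hft0

end Val

section SplitAt

variable {R K : Type*} [CommRing R] [Field K] [Algebra R K]

/-- Valuation form ⟹ `I6.SplitAt`: if every element of `V` is a fraction `a / b` with
`a, b ∈ B`, `b ∉ 𝔭`, and `u / g ^ p ∈ 1 + w ^ k V` for every `k`, then `u` is a `p`-th power in
the `w`-adic completion of `B_𝔭`. -/
theorem splitAt_of_val339 (B : Subalgebra R K) (𝔭 : Ideal B) (w : R) (V : ValuationSubring K)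
    (p : ℕ) (u : K)
    (hloc : ∀ f ∈ V, ∃ a b : B, b ∉ 𝔭 ∧ f * (b : K) = (a : K))
    (hval : ∀ s : ℕ, ∃ g : K, g ≠ 0 ∧
      (u * (g ^ p)⁻¹ - 1) * (algebraMap R K w ^ s)⁻¹ ∈ V)
    (hw0 : algebraMap R K w ≠ 0) :
    I6.SplitAt K 𝔭 (algebraMap R B w) p u := by
  intro k
  obtain ⟨g, hg0, hmem⟩ := hval k
  obtain ⟨a, b, hb, hab⟩ := hloc _ hmem
  refine ⟨g, b, a, hb, ?_⟩
  have hπ : algebraMap (↥B) K (algebraMap R B w) = algebraMap R K w := rfl
  have hb' : algebraMap (↥B) K b = (b : K) := rfl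
  have ha' : algebraMap (↥B) K a = (a : K) := rfl
  rw [hπ, hb', ha', ← hab]
  have hgp : g ^ p ≠ 0 := pow_ne_zero p hg0
  have hwk : algebraMap R K w ^ k ≠ 0 := pow_ne_zero k hw0
  field_simp
  ring

end SplitAt

section Main

variable (p M' : ℕ) [NeZero M'] [NeZero p] [NeZero (p * M')]

/-- **DEEP-SPLIT of `f_t`** at a given good level `E`, chart form: `f_t` is horizontally
`p`-divisible and `I6.SplitAt` along BOTH cuts `p₁ = B ∩ w V∞`, `p₂ = B ∩ w V₀` of the chart `B`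
of a coordinate `y ∈ {x, x⁻¹}`. -/
theorem deepSplit339 (hp : p.Prime) (hp2 : p ≠ 2) (hpM : ¬ p ∣ M')
    (A : ValuationSubring Kbar) (hA : A.LiesOverPrime p)
    (S : Finset ℕ) (a : ℕ → ℤ) (hNE : NonEisAway p a) (t : JZero (p * M'))
    (ht : IsNewTors p M' t) (het : EigenAt (p * M') S a t)
    (hχ : ∀ σ ∈ A.inertiaSubgroupIn ℚ, ∀ c : ℕ, CycloAt p σ c → σ • t = c • t)
    (E : IntermediateField ℚ Kbar) (hE : GoodField A E) (w : Mod.RE A E)
    (hS : Mod.Setting A E M' p w)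
    (V : ValuationSubring (Mod.FE E (M' * p))) (hV : IsVinf A E (M' * p) V)
    (W : Mod.FE E (M' * p) ≃ₐ[E] Mod.FE E (M' * p)) (hW : IsFricke E (M' * p) W)
    (y : Mod.FE E (M' * p)) (hy : Mod.IsCoord E M' p y)
    (p₁ p₂ : Ideal (Mod.chartAlg A E (M' * p) y))
    (hc₁ : Mod.IsCut A E (M' * p) w V (Mod.chartAlg A E (M' * p) y) p₁)
    (hc₂ : Mod.IsCut A E (M' * p) w (V.comap (W : Mod.FE E (M' * p) →+* Mod.FE E (M' * p)))
      (Mod.chartAlg A E (M' * p) y) p₂)
    (f : FF (p * M')) (hK : IsKummerGen (p * M') p f t) (ft : Mod.FE E (M' * p))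
    (hfu : (f : LaurentSeries Kbar) = coeffMap (algebraMap E Kbar) (ft : LaurentSeries E))
    (c : E) (hlc : (ft : LaurentSeries E).leadingCoeff = c ^ p) :
    DivisibleDiv E p ft ∧
      I6.SplitAt (Mod.FE E (M' * p)) p₁
        (algebraMap (Mod.RE A E) (Mod.chartAlg A E (M' * p) y) w) p ft ∧
      I6.SplitAt (Mod.FE E (M' * p)) p₂
        (algebraMap (Mod.RE A E) (Mod.chartAlg A E (M' * p) y) w) p ft := by
  have hval := deepSplit_val339 p M' hp hp2 hpM A hA S a hNE t ht het hχ E hE w hS V hV W hW f hK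
    ft hfu c hlc
  obtain ⟨hl₁, hl₂⟩ := Fermat.Agent.Ribet.H220.cutLoc A E M' p w hS V W hV hW y hy p₁ p₂ hc₁ hc₂
  have hw0 : algebraMap (Mod.RE A E) (Mod.FE E (M' * p)) w ≠ 0 := by
    have hw0' : (w : E) ≠ 0 := fun h => hS.unif.ne_zero (Subtype.ext h)
    have h1 : algebraMap (Mod.RE A E) (Mod.FE E (M' * p)) w
        = algebraMap E (Mod.FE E (M' * p)) (w : E) := rfl
    rw [h1]
    exact (map_ne_zero_iff _ (algebraMap E (Mod.FE E (M' * p))).injective).mpr hw0'
  refine ⟨divisibleDiv339 p M' t E f hK ft hfu, ?_, ?_⟩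
  · refine splitAt_of_val339 _ p₁ w V p ft hl₁ (fun s => ?_) hw0
    obtain ⟨g, hg0, hg, -⟩ := hval s
    exact ⟨g, hg0, hg⟩
  · refine splitAt_of_val339 _ p₂ w _ p ft hl₂ (fun s => ?_) hw0
    obtain ⟨g, hg0, -, hg⟩ := hval s
    exact ⟨g, hg0, hg⟩

end Main

end Fermat.Agent.Ribet.H339

end
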