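/-
# RIBET row 38, WALL-p, (S4) CORE-OUT WILD, piece DEEP-SPLIT of `f_t`, FRAME shape  (helper339)

The fields `hft0`, `hft_div`, `hft_split₁`, `hft_split₂` of `H704.CoreOut.WildFrame` for
`O₁ = RE A E`, `K₁ = FE E (M' * p)`, `B₁ = chartAlg A E (M' * p) (xE E M' p)` and ANY semistable
structure `c` on the chart (`H862.cutBy_of_isCoordPair`: the components of `c` are the cuts of
`V∞` and `V₀`, in one of the two orders), from `deepSplit339`.

Inputs: the WILD hypotheses on `t`, a good level `E` (e.g. `H944.Tame.tameLevel A ζ`,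
`H944.Tame.goodField_tameLevel`), and the output `(Ft, ft)` of `H704.CoreOut.KDStatement`
(`c := 1`).
-/
import Fermat.Agent.Ribet.H339.DeepSplit
import Fermat.Agent.Ribet.H862.StdModel

set_option autoImplicit false
set_option linter.style.haveILetI false
set_option linter.unusedSectionVars false
set_option synthInstance.maxHeartbeats 400000
set_option maxHeartbeats 1600000

noncomputable section

namespace Fermat.Agent.Ribet.H339

open AlgebraicCurve ModularCurve HahnSeries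
open Fermat.Agent.S24 Fermat.Agent.A2.H528 Fermat.Agent.S29.H395
open Fermat.Agent.A2 Fermat.Agent.A2.Mod Fermat.Agent.Ribet.H232
open Fermat.Agent.Ribet.Spec Fermat.Agent.Ribet.H944.Wall Fermat.Agent.Ribet.H884
open Fermat.Agent.Ribet.H704

section Frame

variable (p M' : ℕ) [NeZero M'] [NeZero p] [NeZero (p * M')]

/-- **DEEP-SPLIT of `f_t`, frame shape**: for ANY semistable structure `c` on the finite chart
of level `M' * p` over the good level `E`. -/
theorem deepSplit_frame339 (hp : p.Prime) (hp5 : 5 ≤ p) (hpM : ¬ p ∣ M')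
    (A : ValuationSubring Kbar) (hA : A.LiesOverPrime p)
    (S : Finset ℕ) (a : ℕ → ℤ) (hNE : NonEisAway p a) (t : JZero (p * M'))
    (ht : IsNewTors p M' t) (het : EigenAt (p * M') S a t)
    (hχ : ∀ σ ∈ A.inertiaSubgroupIn ℚ, ∀ c : ℕ, CycloAt p σ c → σ • t = c • t)
    (E : IntermediateField ℚ Kbar) (hE : GoodField A E) (w : Mod.RE A E)
    (hS : Mod.Setting A E M' p w)
    (c : A2.SSChart w (Mod.chartAlg A E (M' * p) (Mod.xE E M' p)))
    (f : FF (p * M')) (hK : IsKummerGen (p * M') p f t) (ft : Mod.FE E (M' * p))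
    (hfu : (f : LaurentSeries Kbar) = coeffMap (algebraMap E Kbar) (ft : LaurentSeries E))
    (e : E) (hlc : (ft : LaurentSeries E).leadingCoeff = e ^ p) :
    ft ≠ 0 ∧ DivisibleDiv E p ft ∧
      I6.SplitAt (Mod.FE E (M' * p)) c.p₁
        (algebraMap (Mod.RE A E) (Mod.chartAlg A E (M' * p) (Mod.xE E M' p)) w) p ft ∧
      I6.SplitAt (Mod.FE E (M' * p)) c.p₂
        (algebraMap (Mod.RE A E) (Mod.chartAlg A E (M' * p) (Mod.xE E M' p)) w) p ft := by
  have hp2 : p ≠ 2 := by omega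
  have hN0 : M' * p ≠ 0 := mul_ne_zero (NeZero.ne M') hp.ne_zero
  obtain ⟨V, hV⟩ := Fermat.Agent.A2.Mod.H708.vinfExists A E (M' * p) hN0 hS.dvr
  have hW : IsFricke E (M' * p) (Mod.H553.wE E (M' * p)) := Mod.H553.isFricke_wE E (M' * p)
  have hft0 : ft ≠ 0 := by
    rintro rfl
    apply hK.1
    apply Subtype.ext
    rw [hfu]
    exact map_zero _
  have hy : Mod.IsCoord E M' p (Mod.xE E M' p) := Or.inl rfl
  have hyP : Mod.IsCoordPair E M' p (Mod.jE E M' 1 (one_dvd _)) (Mod.xE E M' p) :=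
    Or.inl ⟨rfl, rfl⟩
  rcases Fermat.Agent.Ribet.H862.cutBy_of_isCoordPair hS (fun h => by omega) (fun h => by omega)
    V (Mod.H553.wE E (M' * p)) hV hW _ _ hyP (Mod.chartAlg A E (M' * p) (Mod.xE E M' p))
    (fun _ => Iff.rfl) c with hc | hc
  · have hc₁ : Mod.IsCut A E (M' * p) w V (Mod.chartAlg A E (M' * p) (Mod.xE E M' p)) c.p₁ :=
      fun b => hc.cut₁ b
    have hc₂ : Mod.IsCut A E (M' * p) w
        (V.comap ((Mod.H553.wE E (M' * p) : Mod.FE E (M' * p) ≃ₐ[E] Mod.FE E (M' * p)) :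
          Mod.FE E (M' * p) →+* Mod.FE E (M' * p)))
        (Mod.chartAlg A E (M' * p) (Mod.xE E M' p)) c.p₂ := fun b => hc.cut₂ b
    obtain ⟨h1, h2, h3⟩ := deepSplit339 p M' hp hp2 hpM A hA S a hNE t ht het hχ E hE w hS V hV
      (Mod.H553.wE E (M' * p)) hW _ hy c.p₁ c.p₂ hc₁ hc₂ f hK ft hfu e hlc
    exact ⟨hft0, h1, h2, h3⟩
  · have hc₁ : Mod.IsCut A E (M' * p) w V (Mod.chartAlg A E (M' * p) (Mod.xE E M' p)) c.p₂ :=
      fun b => hc.cut₂ b
    have hc₂ : Mod.IsCut A E (M' * p) w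
        (V.comap ((Mod.H553.wE E (M' * p) : Mod.FE E (M' * p) ≃ₐ[E] Mod.FE E (M' * p)) :
          Mod.FE E (M' * p) →+* Mod.FE E (M' * p)))
        (Mod.chartAlg A E (M' * p) (Mod.xE E M' p)) c.p₁ := fun b => hc.cut₁ b
    obtain ⟨h1, h2, h3⟩ := deepSplit339 p M' hp hp2 hpM A hA S a hNE t ht het hχ E hE w hS V hV
      (Mod.H553.wE E (M' * p)) hW _ hy c.p₂ c.p₁ hc₁ hc₂ f hK ft hfu e hlc
    exact ⟨hft0, h1, h3, h2⟩

end Frame

end Fermat.Agent.Ribet.H339

end
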